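import Mathlib.NumberTheory.ModularForms.CongruenceSubgroups
import Mathlib.GroupTheory.Index

/-!
# The index of `Γ₀(2)` in `SL(2, ℤ)` is at most `4`

(It is in fact `3`, but the crude bound is all the Sturm bound needs.)
-/

set_option autoImplicit false

open scoped MatrixGroups

namespace Fermat.Agent.S07

/-- A subgroup whose cosets are separated by a map to a finite type has index bounded by the
cardinality of that type. -/
theorem index_le_card_of_sep {G α : Type*} [Group G] [Finite α] (H : Subgroup G) (φ : G → α)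
    (hφ : ∀ g h : G, φ g = φ h → g⁻¹ * h ∈ H) : H.index ≤ Nat.card α := by
  classical
  rw [Subgroup.index]
  refine Nat.card_le_card_of_injective (fun q : G ⧸ H => φ q.out) ?_
  intro q q' hqq
  have h1 := hφ _ _ hqq
  have h2 : (q.out : G ⧸ H) = (q'.out : G ⧸ H) := QuotientGroup.eq.mpr h1
  simpa using h2

/-- First column mod `2`. -/
def colModTwo (g : SL(2, ℤ)) : ZMod 2 × ZMod 2 := ((g 0 0 : ZMod 2), (g 1 0 : ZMod 2))

theorem Gamma0_two_index_le : (CongruenceSubgroup.Gamma0 2).index ≤ 4 := by
  have h := index_le_card_of_sep (CongruenceSubgroup.Gamma0 2) colModTwo ?_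
  · simpa using h
  intro g h hgh
  rw [CongruenceSubgroup.Gamma0_mem]
  simp only [colModTwo, Prod.mk.injEq] at hgh
  obtain ⟨h0, h1⟩ := hgh
  have hinv : (g⁻¹ * h) 1 0 = -(g 1 0) * h 0 0 + g 0 0 * h 1 0 := by
    rw [Matrix.SpecialLinearGroup.coe_mul, Matrix.SpecialLinearGroup.coe_inv,
      Matrix.adjugate_fin_two, Matrix.mul_apply, Fin.sum_univ_two]
    simp
  rw [hinv]
  push_cast
  rw [h0, h1]
  ring

end Fermat.Agent.S07
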